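/-
GATE-N / S48-TOP-SMALLPRIMES (helper52): the small primes `2, 3` are free at TOP.

`S48At N` is the frozen statement S48 at the level `N` (verbatim binders).  If `S48At N'` holds for
every level `N'` divisible by `2` or by `3`, then it holds for every level:  for `N` prime to `6`
view `f` at the levels `2N` and `3N` (same function, same `q`-coefficients, character changed of
level), get `ρ₂` good outside `2N` and `ρ₃` good outside `3N`, and glue with the two-prime argument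
`DS.N7.goodAt_of_two` (`B = {2}`, `B' = {3}`).

Consequence for the `Γ₁`-port: at a level `N'` with `3 ∣ N'` the prime `ℓ = 2` only ever occurs
with `3 ∣ M` and `ℓ = 3` never occurs (and symmetrically), which is exactly the range covered by the
Hauptmodul charts `t₃`, `t₂`.
-/
import Mathlib
import Fermat.Prelude.Def_GaloisRep_Residual
import Fermat.Prelude.Def_Deformations_MatrixRepresentation
import Fermat.Agent.DS.Glue.LevelGlue
import Fermat.Agent.DS.N7.TwoPrimes

set_option autoImplicit false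

namespace Fermat.Agent.DS.Top.SmallPrimes

open CongruenceSubgroup
open scoped MatrixGroups

local notation "Γℚ" => (AlgebraicClosure ℚ ≃ₐ[ℚ] AlgebraicClosure ℚ)

open Fermat.Agent.DS.Glue Fermat.Agent.DS.N7

/-- The frozen statement S48 at the level `N` (verbatim). -/
def S48At (N : ℕ) [NeZero N] : Prop :=
  ∀ (ε : DirichletCharacter ℂ N) (f : CuspForm (Gamma1 N) 1),
    ModularFormClass.qCoeff f 1 = 1 →
    (∀ p : ℕ, p.Prime → ¬ p ∣ N → ∀ n : ℕ,
        ModularFormClass.qCoeff f (p * n) +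
            ε (p : ZMod N) * (if p ∣ n then ModularFormClass.qCoeff f (n / p) else 0) =
          ModularFormClass.qCoeff f p * ModularFormClass.qCoeff f n) →
    ∃ ρ : Γℚ →* GL (Fin 2) ℂ, GaloisFactorsThroughFiniteLevel ρ ∧
      (Deformation.matrixRepresentation ρ).IsIrreducible ∧
      ∀ p : ℕ, p.Prime → ¬ p ∣ N →
        ∀ A : ValuationSubring (AlgebraicClosure ℚ), A.LiesOverPrime p →
          (∀ σ ∈ A.inertiaSubgroupIn ℚ, ρ σ = 1) ∧
          ∀ σ : Γℚ, A.IsFrobeniusAt σ p →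
            ((ρ σ : GL (Fin 2) ℂ) : Matrix (Fin 2) (Fin 2) ℂ).trace = ModularFormClass.qCoeff f p ∧
            ((ρ σ : GL (Fin 2) ℂ) : Matrix (Fin 2) (Fin 2) ℂ).det = ε (p : ZMod N)

/-- The value of a character of changed level at a natural number prime to the new level. -/
theorem changeLevel_natCast {N M : ℕ} [NeZero N] [NeZero M] (h : N ∣ M)
    (ε : DirichletCharacter ℂ N) {p : ℕ} (hp : Nat.Coprime p M) :
    DirichletCharacter.changeLevel h ε (p : ZMod M) = ε (p : ZMod N) := by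
  have h1 := DirichletCharacter.changeLevel_eq_cast_of_dvd ε h (ZMod.unitOfCoprime p hp)
  rw [ZMod.coe_unitOfCoprime] at h1
  rw [h1, ZMod.cast_natCast h]

/-- From S48 at the level `r * N` (`r` prime): a representation attached to `f` of level `N`, good at
all primes not dividing `N` and different from `r`. -/
theorem exists_rho_of_mul {r : ℕ} (hr : r.Prime) (N : ℕ) [NeZero N]
    (hrN : NeZero (r * N)) (H : @S48At (r * N) hrN)
    (ε : DirichletCharacter ℂ N) (f : CuspForm (Gamma1 N) 1)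
    (hf₁ : ModularFormClass.qCoeff f 1 = 1)
    (hT : ∀ p : ℕ, p.Prime → ¬ p ∣ N → ∀ n : ℕ,
        ModularFormClass.qCoeff f (p * n) +
            ε (p : ZMod N) * (if p ∣ n then ModularFormClass.qCoeff f (n / p) else 0) =
          ModularFormClass.qCoeff f p * ModularFormClass.qCoeff f n) :
    ∃ ρ : Γℚ →* GL (Fin 2) ℂ, GaloisFactorsThroughFiniteLevel ρ ∧
      (Deformation.matrixRepresentation ρ).IsIrreducible ∧
      ∀ p : ℕ, p.Prime → ¬ p ∣ N → p ∉ ({r} : Finset ℕ) →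
        GoodAt ρ p (ModularFormClass.qCoeff f p) (ε (p : ZMod N)) := by
  have hdvd : N ∣ r * N := dvd_mul_left N r
  have hcop : ∀ p : ℕ, p.Prime → ¬ p ∣ r * N → Nat.Coprime p (r * N) :=
    fun p hp hpn => (Nat.Prime.coprime_iff_not_dvd hp).mpr hpn
  have hnd : ∀ p : ℕ, ¬ p ∣ r * N → ¬ p ∣ N := fun p hpn hpN => hpn (hpN.trans hdvd)
  obtain ⟨ρ, hfin, hirr, hgood⟩ := H (DirichletCharacter.changeLevel hdvd ε) (cfLevelUp hdvd f)
    (by rw [qCoeff_levelUp]; exact hf₁)
    (by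
      intro p hp hpn n
      rw [qCoeff_levelUp, qCoeff_levelUp, qCoeff_levelUp, qCoeff_levelUp,
        changeLevel_natCast hdvd ε (hcop p hp hpn)]
      exact hT p hp (hnd p hpn) n)
  refine ⟨ρ, hfin, hirr, ?_⟩
  intro p hp hpN hpr
  have hpr' : p ≠ r := fun h => hpr (by rw [h]; exact Finset.mem_singleton_self r)
  have hpn : ¬ p ∣ r * N := by
    intro hd
    rcases (Nat.Prime.dvd_mul hp).mp hd with h | h
    · exact hpr' ((Nat.prime_dvd_prime_iff_eq hp hr).mp h)
    · exact hpN h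
  intro A hA
  obtain ⟨hin, hfr⟩ := hgood p hp hpn A hA
  refine ⟨hin, fun σ hσ => ?_⟩
  obtain ⟨ht, hd⟩ := hfr σ hσ
  rw [qCoeff_levelUp] at ht
  rw [changeLevel_natCast hdvd ε (hcop p hp hpn)] at hd
  exact ⟨ht, hd⟩

/-- **Small primes are free**: the frozen S48 at all levels divisible by `2` or by `3` implies the
frozen S48 at all levels. -/
theorem s48At_of_div
    (H : ∀ (N : ℕ) [NeZero N], (2 ∣ N ∨ 3 ∣ N) → S48At N) :
    ∀ (N : ℕ) [NeZero N], S48At N := by
  intro N _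
  by_cases h : 2 ∣ N ∨ 3 ∣ N
  · exact H N h
  intro ε f hf₁ hT
  have hN : N ≠ 0 := NeZero.ne N
  have h2N : NeZero (2 * N) := ⟨by omega⟩
  have h3N : NeZero (3 * N) := ⟨by omega⟩
  obtain ⟨ρ₂, hfin₂, hirr₂, hgood₂⟩ := exists_rho_of_mul Nat.prime_two N h2N
    (@H (2 * N) h2N (Or.inl (dvd_mul_right 2 N))) ε f hf₁ hT
  obtain ⟨ρ₃, hfin₃, _, hgood₃⟩ := exists_rho_of_mul Nat.prime_three N h3N
    (@H (3 * N) h3N (Or.inr (dvd_mul_right 3 N))) ε f hf₁ hT
  have hall := goodAt_of_two N hN (fun p => ModularFormClass.qCoeff f p)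
    (fun p => ε (p : ZMod N)) ρ₂ ρ₃ hfin₂ hfin₃ {2} {3} (by decide) hgood₂ hgood₃
  exact ⟨ρ₂, hfin₂, hirr₂, fun p hp hpN => hall p hp hpN⟩

/-- General multiplier version of `exists_rho_of_mul`: from S48 at the level `m * N`, a
representation attached to `f` of level `N`, good at all primes not dividing `N` and not
dividing `m`. -/
theorem exists_rho_of_mul' {m : ℕ} (N : ℕ) [NeZero N]
    (hmN : NeZero (m * N)) (H : @S48At (m * N) hmN)
    (ε : DirichletCharacter ℂ N) (f : CuspForm (Gamma1 N) 1)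
    (hf₁ : ModularFormClass.qCoeff f 1 = 1)
    (hT : ∀ p : ℕ, p.Prime → ¬ p ∣ N → ∀ n : ℕ,
        ModularFormClass.qCoeff f (p * n) +
            ε (p : ZMod N) * (if p ∣ n then ModularFormClass.qCoeff f (n / p) else 0) =
          ModularFormClass.qCoeff f p * ModularFormClass.qCoeff f n) :
    ∃ ρ : Γℚ →* GL (Fin 2) ℂ, GaloisFactorsThroughFiniteLevel ρ ∧
      (Deformation.matrixRepresentation ρ).IsIrreducible ∧
      ∀ p : ℕ, p.Prime → ¬ p ∣ N → p ∉ m.primeFactors →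
        GoodAt ρ p (ModularFormClass.qCoeff f p) (ε (p : ZMod N)) := by
  have hm0 : m ≠ 0 := fun h => by
    have := hmN.out
    rw [h, zero_mul] at this
    exact this rfl
  have hdvd : N ∣ m * N := dvd_mul_left N m
  have hcop : ∀ p : ℕ, p.Prime → ¬ p ∣ m * N → Nat.Coprime p (m * N) :=
    fun p hp hpn => (Nat.Prime.coprime_iff_not_dvd hp).mpr hpn
  have hnd : ∀ p : ℕ, ¬ p ∣ m * N → ¬ p ∣ N := fun p hpn hpN => hpn (hpN.trans hdvd)
  obtain ⟨ρ, hfin, hirr, hgood⟩ := H (DirichletCharacter.changeLevel hdvd ε) (cfLevelUp hdvd f)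
    (by rw [qCoeff_levelUp]; exact hf₁)
    (by
      intro p hp hpn n
      rw [qCoeff_levelUp, qCoeff_levelUp, qCoeff_levelUp, qCoeff_levelUp,
        changeLevel_natCast hdvd ε (hcop p hp hpn)]
      exact hT p hp (hnd p hpn) n)
  refine ⟨ρ, hfin, hirr, ?_⟩
  intro p hp hpN hpm
  have hpm' : ¬ p ∣ m := fun h => hpm (Nat.mem_primeFactors.mpr ⟨hp, h, hm0⟩)
  have hpn : ¬ p ∣ m * N := by
    intro hd
    rcases (Nat.Prime.dvd_mul hp).mp hd with h | h
    · exact hpm' h
    · exact hpN h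
  intro A hA
  obtain ⟨hin, hfr⟩ := hgood p hp hpn A hA
  refine ⟨hin, fun σ hσ => ?_⟩
  obtain ⟨ht, hd⟩ := hfr σ hσ
  rw [qCoeff_levelUp] at ht
  rw [changeLevel_natCast hdvd ε (hcop p hp hpn)] at hd
  exact ⟨ht, hd⟩

/-- **Two coprime auxiliary levels suffice**: S48 at `m * N` and at `m' * N` with `m`, `m'`
coprime implies S48 at `N`. -/
theorem s48At_of_coprime_mul {m m' : ℕ} (hmm : Nat.Coprime m m') (N : ℕ) [NeZero N]
    (hmN : NeZero (m * N)) (hm'N : NeZero (m' * N))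
    (H : @S48At (m * N) hmN) (H' : @S48At (m' * N) hm'N) : S48At N := by
  intro ε f hf₁ hT
  have hN : N ≠ 0 := NeZero.ne N
  obtain ⟨ρ, hfin, hirr, hgood⟩ := exists_rho_of_mul' N hmN H ε f hf₁ hT
  obtain ⟨ρ', hfin', _, hgood'⟩ := exists_rho_of_mul' N hm'N H' ε f hf₁ hT
  have hall := goodAt_of_two N hN (fun p => ModularFormClass.qCoeff f p)
    (fun p => ε (p : ZMod N)) ρ ρ' hfin hfin' m.primeFactors m'.primeFactors
    hmm.disjoint_primeFactors hgood hgood'
  exact ⟨ρ, hfin, hirr, fun p hp hpN => hall p hp hpN⟩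

/-- Variant of `s48At_of_div` for an arbitrary property `P` of levels that is reached from every
level by two coprime multipliers (e.g. `P N' := 5 ≤ N' ∧ (2 ∣ N' ∨ 3 ∣ N')`, multipliers `2 ^ 3`
and `3 ^ 2`). -/
theorem s48At_of_reach (P : ℕ → Prop)
    (hP : ∀ N : ℕ, N ≠ 0 → ∃ m m' : ℕ, m ≠ 0 ∧ m' ≠ 0 ∧ Nat.Coprime m m' ∧ P (m * N) ∧ P (m' * N))
    (H : ∀ (N : ℕ) [NeZero N], P N → S48At N) :
    ∀ (N : ℕ) [NeZero N], S48At N := by
  intro N _
  obtain ⟨m, m', hm, hm', hmm, hPm, hPm'⟩ := hP N (NeZero.ne N)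
  have hmN : NeZero (m * N) := ⟨mul_ne_zero hm (NeZero.ne N)⟩
  have hm'N : NeZero (m' * N) := ⟨mul_ne_zero hm' (NeZero.ne N)⟩
  exact s48At_of_coprime_mul hmm N hmN hm'N (@H (m * N) hmN hPm) (@H (m' * N) hm'N hPm')

/-- Levels divisible by `4` or by `9` suffice (such levels are `≥ 4`, so every port level
`M = N' * ℓ` is `≥ 5`; `ℓ = 3` occurs only with `2 ∣ M`, `ℓ = 2` only with `3 ∣ M`). -/
theorem s48At_of_div_four_nine
    (H : ∀ (N : ℕ) [NeZero N], (4 ∣ N ∨ 9 ∣ N) → S48At N) :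
    ∀ (N : ℕ) [NeZero N], S48At N :=
  s48At_of_reach (fun N' => 4 ∣ N' ∨ 9 ∣ N')
    (fun N _ => ⟨4, 9, by norm_num, by norm_num, by norm_num,
      Or.inl (dvd_mul_right 4 N), Or.inr (dvd_mul_right 9 N)⟩) H

end Fermat.Agent.DS.Top.SmallPrimes
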