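/-
GATE-N / S48-TOP-PORT23 (helper10): the frozen S48 from `ChebInputs` and the port export at the levels
`M = N ℓ` with `2 ∣ N ∨ 3 ∣ N` ONLY (resp. `4 ∣ N ∨ 9 ∣ N`).

`DS/N6/S48Plug.s48_of_port` asks the port at every level `N`; the port (K18s at the Frobenius prime
`q`: `q = 2 → 3 ∣ M`, `q = 3 → 2 ∣ M`) can only deliver `PortExport1 M ℓ` when `2 ∣ M ∨ 3 ∣ M`.  Here
helper52's `SmallPrimes.s48At_of_div` is composed IN FRONT of helper12's depletion (level `N ↦ N * N`,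
which keeps the divisibility by `2` or `3`), helper51's `s48_of_modL` and helper4's `gateModL_of_port`.
-/
import Fermat.Agent.DS.N6.S48Plug
import Fermat.Agent.DS.Top.SmallPrimes

set_option autoImplicit false

open CongruenceSubgroup
open scoped MatrixGroups

namespace Fermat.Agent.DS.Top.Port23

open Fermat.Agent.DS.Top.SmallPrimes

/-- The frozen S48 at the level `N`, from `ChebInputs` and the port export at the levels `N * N * ℓ`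
(`ℓ` large, `ℓ ∤ N * N`). -/
theorem s48At_of_port_sq (hin : Fermat.Agent.DS.N8.ChebInputs) (N : ℕ) [NeZero N]
    (hPort : ∃ ℓ₁ : ℕ, ∀ (ℓ : ℕ) [Fact ℓ.Prime] [NeZero (N * N * ℓ)], ℓ₁ ≤ ℓ → ¬ ℓ ∣ N * N →
      Fermat.Agent.DS.N3.Theta.PortExport1 (N * N * ℓ) ℓ) :
    S48At N := by
  intro ε f hf₁ hT
  obtain ⟨g, hg, hg1, hgT, hgmem⟩ := Fermat.Agent.DS.N3.exists_depleted_s48 N ε f hf₁ hT
  refine Fermat.Agent.DS.N3.s48_of_depleted N ε f g hg ?_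
  obtain ⟨ℓ₁, hℓ₁⟩ := hPort
  refine Fermat.Agent.DS.N6.s48_of_modL hin (N * N) _ g hg1 hgT ?_
  intro E _ a' e' ha' he'
  exact Fermat.Agent.DS.N3.Theta.gateModL_of_port (N * N) _ g hg1 hgT hgmem ℓ₁
    (fun ℓ _ _ h1 h2 => hℓ₁ ℓ h1 h2) (algebraMap E ℂ) a' e' ha' he'

/-- **The frozen S48 (all levels) from `ChebInputs` and the port export at the levels `M = N ℓ` with
`2 ∣ N ∨ 3 ∣ N`.** -/
theorem s48At_of_port23 (hin : Fermat.Agent.DS.N8.ChebInputs)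
    (hPort : ∀ (N : ℕ) [NeZero N], (2 ∣ N ∨ 3 ∣ N) → ∃ ℓ₁ : ℕ,
      ∀ (ℓ : ℕ) [Fact ℓ.Prime] [NeZero (N * ℓ)], ℓ₁ ≤ ℓ → ¬ ℓ ∣ N →
        Fermat.Agent.DS.N3.Theta.PortExport1 (N * ℓ) ℓ) :
    ∀ (N : ℕ) [NeZero N], S48At N := by
  refine s48At_of_div ?_
  intro N _ h23
  exact s48At_of_port_sq hin N
    (hPort (N * N) (h23.imp (fun h => Dvd.dvd.mul_right h N) (fun h => Dvd.dvd.mul_right h N)))

/-- Variant: the port export at the levels `M = N ℓ` with `4 ∣ N ∨ 9 ∣ N` suffices (such `M` are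
`≥ 20` for `ℓ ≥ 5`, never divide `4`, and `2 ∣ M ∨ 3 ∣ M`). -/
theorem s48At_of_port49 (hin : Fermat.Agent.DS.N8.ChebInputs)
    (hPort : ∀ (N : ℕ) [NeZero N], (4 ∣ N ∨ 9 ∣ N) → ∃ ℓ₁ : ℕ,
      ∀ (ℓ : ℕ) [Fact ℓ.Prime] [NeZero (N * ℓ)], ℓ₁ ≤ ℓ → ¬ ℓ ∣ N →
        Fermat.Agent.DS.N3.Theta.PortExport1 (N * ℓ) ℓ) :
    ∀ (N : ℕ) [NeZero N], S48At N := by
  refine s48At_of_div_four_nine ?_
  intro N _ h49
  exact s48At_of_port_sq hin N
    (hPort (N * N) (h49.imp (fun h => Dvd.dvd.mul_right h N) (fun h => Dvd.dvd.mul_right h N)))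

end Fermat.Agent.DS.Top.Port23
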